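import Fermat.Agent.H84.ORD.NodalSpecFinal
import Fermat.Agent.H85.ORD.GalW
import Fermat.Agent.H66.ORD.NmValue
import Fermat.Agent.H18.ORD.NodalSemiDefs
import Fermat.Agent.H39.ESBValuationRing

/-!
# P-ORD B1 [CF] : the inertia-fixed unit multiplier `g` (helper36, second seat of helper22)

Level `N` (for the statements on `V_0` : `N = M p`), `A` a valuation subring of `ℚ̄`,
`F = FLb N = ℚ̄(X₀(N))`, `j = nmJ N`.

For a place `P` of `F` the **local multiplier** is
`nmMulAt A P = j - a` if `a = j(P) ∈ A`, `= 1 - a⁻¹ j` if `a = j(P) ∉ A`, `= 1` if `P` is a pole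
of `j`; the **multiplier** of the pair `(P∞, P0)` is
`nmMul A P∞ P0 n = (nmMulAt A P∞)^n * (nmMulAt A P0)^n`.

* `nmMul_mem_Voo`, `nmMul_inv_mem_Voo`, `nmMul_mem_V0`, `nmMul_inv_mem_V0` : `g` is a unit of the
  two Gauss rings `V_∞ = gaussOBar N A` and `V_0 = nmV0 M p hcop A`;
* `nmMul_mul_mem_Voo_iff`, `nmMul_mul_mem_V0_iff` : multiplication by `g` preserves `V_∞`, `V_0`
  in both directions;
* `nmMul_unr` : `g` is inertia-fixed if `P∞`, `P0` are; `nmMul_mul_unr`;
* `nmMul_mul_ord_nonneg` : for `f ∈ L(n P∞ + n P0)` the product `g f` has no pole outside the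
  poles of `j`;
* `nmMul_mul_isIntegral` : hence `g f` is integral over `ℚ̄[j]`.
-/

set_option autoImplicit false
set_option linter.unusedSectionVars false
set_option linter.style.haveILetI false
set_option synthInstance.maxHeartbeats 400000

noncomputable section

open AlgebraicCurve ModularCurve IntermediateField

namespace Fermat.Agent.H36.ORD

open Fermat.Agent.H72.FF Fermat.Agent.H10.FF Fermat.Agent.H18.ORD Fermat.Agent.H66
  Fermat.Agent.H84.ORD

/-! ### 0. Abstract lemmas -/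

section Abs

variable {K F : Type} [Field K] [Field F] [Algebra K F]

/-- A function has at most one value at a place. -/
theorem mulabs_value_unique (P : Place K F) {y : F} {a b : K}
    (ha : y = algebraMap K F a ∨ 1 ≤ P.ord (y - algebraMap K F a))
    (hb : y = algebraMap K F b ∨ 1 ≤ P.ord (y - algebraMap K F b)) : a = b := by
  by_contra hne
  have hab : algebraMap K F (a - b) ≠ 0 := fun h =>
    hne (sub_eq_zero.mp ((map_eq_zero (algebraMap K F)).mp h))
  have h0 : P.ord (algebraMap K F (a - b)) = 0 := Fermat.Agent.H23.ord_algebraMap P (a - b)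
  rcases ha with ha | ha <;> rcases hb with hb | hb
  · exact hne ((algebraMap K F).injective (ha.symm.trans hb))
  · rw [ha, ← map_sub, h0] at hb
    omega
  · rw [hb, ← map_sub] at ha
    have h0' : P.ord (algebraMap K F (b - a)) = 0 := Fermat.Agent.H23.ord_algebraMap P (b - a)
    rw [h0'] at ha
    omega
  · have e : (y - algebraMap K F b) + -(y - algebraMap K F a) = algebraMap K F (a - b) := by
      rw [map_sub]; ring
    have h1 : (1 : ℤ) ≤ P.ord ((y - algebraMap K F b) + -(y - algebraMap K F a)) := by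
      refine Fermat.Agent.H23.ord_add_ge P ?_ 1 (Or.inr hb) (Or.inr ?_)
      · rw [e]; exact hab
      · rw [Fermat.Agent.H23.ord_neg]; exact ha
    rw [e, h0] at h1
    omega

variable [IsAlgClosed K] [CharZero K]

/-- **Valuative criterion.** An element of `F` without poles outside the poles of `x` is
integral over `K[x]`. -/
theorem mulabs_isIntegral_of_ord (x : F) (hx : Transcendental K x)
    (hfin : FiniteDimensional K⟮x⟯ F) (h : F)
    (hh : ∀ w : Place K F, 0 ≤ w.ord x → h = 0 ∨ 0 ≤ w.ord h) :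
    IsIntegral (Algebra.adjoin K ({x} : Set F)) h := by
  by_contra hcon
  have hnot : h ∉ (integralClosure (Algebra.adjoin K ({x} : Set F)) F).toSubring := hcon
  obtain ⟨V, hV, hgV⟩ :=
    Subring.exists_le_valuationSubring_of_isIntegrallyClosedIn hnot
  have hAV : ∀ a : Algebra.adjoin K ({x} : Set F), (a : F) ∈ V := by
    intro a
    exact hV (algebraMap_mem (integralClosure (Algebra.adjoin K ({x} : Set F)) F) a)
  have hKV : ∀ a : K, algebraMap K F a ∈ V := by
    intro a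
    exact hAV ⟨algebraMap K F a, Subalgebra.algebraMap_mem _ a⟩
  have hxV : x ∈ V := hAV ⟨x, Algebra.subset_adjoin (Set.mem_singleton x)⟩
  have hVtop : V ≠ ⊤ := by
    intro h'
    exact hgV (h' ▸ ValuationSubring.mem_top h)
  obtain ⟨w, hw⟩ := Fermat.Agent.H39.valuationRingDVR K F x hx hfin V hKV hVtop
  have hwx : 0 ≤ w.ord x := Fermat.Agent.H29.place_ord_nonneg_of_mem w (by rw [hw]; exact hxV)
  rcases hh w hwx with h0 | h0
  · exact hgV (h0 ▸ V.zero_mem)
  · have := Fermat.Agent.H29.place_mem_of_ord_nonneg w h0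
    rw [hw] at this
    exact hgV this

end Abs

/-! ### 1. Units of the Gauss ring of the shapes `x - a`, `1 - b x`, `x = j(q^d)` -/

section Gauss

variable (N : ℕ) [NeZero N] (A : ValuationSubring Qb)

theorem mulg_algebraMap_eq_single (k : Type) [Field k] (c : k) :
    algebraMap k (LaurentSeries k) c = HahnSeries.single 0 c := by
  have h1 : algebraMap k (PowerSeries k) c = PowerSeries.C c := by simp
  rw [HahnSeries.algebraMap_apply', h1, HahnSeries.ofPowerSeries_C]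
  rfl

theorem mulg_series_ne (k : Type) [Field k] (d : ℕ) [NeZero d] (c : k) :
    qExpand k d (jqModC k) - algebraMap k (LaurentSeries k) c ≠ 0 := by
  intro h
  have hd : ((d : ℤ) * (-1)) ≠ 0 := by
    have : (d : ℤ) ≠ 0 := by exact_mod_cast NeZero.ne d
    simpa using this
  have h1 : (qExpand k d (jqModC k) - algebraMap k (LaurentSeries k) c).coeff
      ((d : ℤ) * (-1)) = 1 := by
    rw [HahnSeries.coeff_sub, qExpand_coeff_mul, coeff_jqModC_neg_one,
      mulg_algebraMap_eq_single, HahnSeries.coeff_single_of_ne hd, sub_zero]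
  rw [h] at h1
  simp at h1

/-- `j(q^d) - a ∈ V_∞` for `a ∈ A`. -/
theorem mulg_sub_mem (d : ℕ) [NeZero d] (hd : d ∣ N) {a : Qb} (ha : a ∈ A) :
    Fermat.Agent.H23.jBarD N d hd - algebraMap Qb (FLb N) a ∈ gaussOBar N A :=
  (gaussOBar N A).sub_mem (nm_jBarD_mem N d hd A) ((algebraMap_mem_gaussOBar_iff N A a).2 ha)

theorem mulg_sub_red (d : ℕ) [NeZero d] (hd : d ∣ N) {a : Qb} (ha : a ∈ A) :
    gaussRedBar N A ⟨_, mulg_sub_mem N A d hd ha⟩ =
      qExpand (kRes A) d (jqModC (kRes A)) -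
        algebraMap (kRes A) (LaurentSeries (kRes A)) (IsLocalRing.residue ↥A ⟨a, ha⟩) := by
  have e : (⟨_, mulg_sub_mem N A d hd ha⟩ : gaussOBar N A) =
      ⟨Fermat.Agent.H23.jBarD N d hd, nm_jBarD_mem N d hd A⟩ -
        ⟨algebraMap Qb (FLb N) a, (algebraMap_mem_gaussOBar_iff N A a).2 ha⟩ := rfl
  rw [e, map_sub, nm_jBarD_red, gaussRedBar_algebraMap N A ha]

/-- `(j(q^d) - a)⁻¹ ∈ V_∞` for `a ∈ A`. -/
theorem mulg_sub_inv_mem (d : ℕ) [NeZero d] (hd : d ∣ N) {a : Qb} (ha : a ∈ A) :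
    (Fermat.Agent.H23.jBarD N d hd - algebraMap Qb (FLb N) a)⁻¹ ∈ gaussOBar N A := by
  have := inv_mem_gaussOBar N A (u := ⟨_, mulg_sub_mem N A d hd ha⟩)
    (by rw [mulg_sub_red N A d hd ha]; exact mulg_series_ne _ d _)
  exact this

/-- `1 - b j(q^d) ∈ V_∞` for `b ∈ 𝔪_A`. -/
theorem mulg_one_sub_mem (d : ℕ) [NeZero d] (hd : d ∣ N) {b : Qb} (hb : b ∈ A.nonunits) :
    1 - algebraMap Qb (FLb N) b * Fermat.Agent.H23.jBarD N d hd ∈ gaussOBar N A :=
  (gaussOBar N A).sub_mem (gaussOBar N A).one_mem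
    ((gaussOBar N A).mul_mem
      ((algebraMap_mem_gaussOBar_iff N A b).2 (Fermat.Agent.H66.ORD.nm_nonunits_subset A b hb))
      (nm_jBarD_mem N d hd A))

theorem mulg_one_sub_red (d : ℕ) [NeZero d] (hd : d ∣ N) {b : Qb} (hb : b ∈ A.nonunits) :
    gaussRedBar N A ⟨_, mulg_one_sub_mem N A d hd hb⟩ = 1 := by
  have hbA : b ∈ A := Fermat.Agent.H66.ORD.nm_nonunits_subset A b hb
  have e : (⟨_, mulg_one_sub_mem N A d hd hb⟩ : gaussOBar N A) =
      1 - ⟨algebraMap Qb (FLb N) b, (algebraMap_mem_gaussOBar_iff N A b).2 hbA⟩ *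
        ⟨Fermat.Agent.H23.jBarD N d hd, nm_jBarD_mem N d hd A⟩ := rfl
  have hres : IsLocalRing.residue ↥A ⟨b, hbA⟩ = 0 := by
    rw [IsLocalRing.residue_eq_zero_iff, ← ValuationSubring.coe_mem_nonunits_iff]
    exact hb
  rw [e, map_sub, map_one, map_mul, gaussRedBar_algebraMap N A hbA, hres, map_zero, zero_mul,
    sub_zero]

/-- `(1 - b j(q^d))⁻¹ ∈ V_∞` for `b ∈ 𝔪_A`. -/
theorem mulg_one_sub_inv_mem (d : ℕ) [NeZero d] (hd : d ∣ N) {b : Qb} (hb : b ∈ A.nonunits) :
    (1 - algebraMap Qb (FLb N) b * Fermat.Agent.H23.jBarD N d hd)⁻¹ ∈ gaussOBar N A := by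
  have := inv_mem_gaussOBar N A (u := ⟨_, mulg_one_sub_mem N A d hd hb⟩)
    (by rw [mulg_one_sub_red N A d hd hb]; exact one_ne_zero)
  exact this

end Gauss

/-! ### 2. The three shapes of a local multiplier -/

section Shape

variable {N : ℕ} [NeZero N] (A : ValuationSubring Qb)

/-- the three shapes of a local multiplier : `j - a` (`a ∈ A`), `1 - b j` (`b ∈ 𝔪_A`), `1` -/
def IsNmMulShape (g : FLb N) : Prop :=
  (∃ a ∈ A, g = nmJ N - algebraMap Qb (FLb N) a) ∨
    (∃ b ∈ A.nonunits, g = 1 - algebraMap Qb (FLb N) b * nmJ N) ∨ g = 1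

variable {A}

theorem IsNmMulShape.mem_Voo {g : FLb N} (h : IsNmMulShape A g) : g ∈ gaussOBar N A := by
  rcases h with ⟨a, ha, rfl⟩ | ⟨b, hb, rfl⟩ | rfl
  · exact mulg_sub_mem N A 1 (one_dvd N) ha
  · exact mulg_one_sub_mem N A 1 (one_dvd N) hb
  · exact (gaussOBar N A).one_mem

theorem IsNmMulShape.inv_mem_Voo {g : FLb N} (h : IsNmMulShape A g) : g⁻¹ ∈ gaussOBar N A := by
  rcases h with ⟨a, ha, rfl⟩ | ⟨b, hb, rfl⟩ | rfl
  · exact mulg_sub_inv_mem N A 1 (one_dvd N) ha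
  · exact mulg_one_sub_inv_mem N A 1 (one_dvd N) hb
  · rw [inv_one]; exact (gaussOBar N A).one_mem

theorem nmJ_sub_ne_zero (N : ℕ) [NeZero N] (a : Qb) : nmJ N - algebraMap Qb (FLb N) a ≠ 0 := by
  intro h
  have h1 := congrArg (fun y : FLb N => (y : LaurentSeries Qb)) h
  have h2 : ((nmJ N - algebraMap Qb (FLb N) a : FLb N) : LaurentSeries Qb) =
      qExpand Qb 1 (jqModC Qb) - algebraMap Qb (LaurentSeries Qb) a := by
    have e : ((nmJ N : FLb N) : LaurentSeries Qb) = qExpand Qb 1 (jqModC Qb) := by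
      show coeffEmb Qb (qExpand ℚ 1 jq) = _
      rw [coeffEmb, coeffMap_qExpand, ← jqModC_rat, coeffMap_jqModC]
    rw [← e]
    rfl
  have h3 : ((0 : FLb N) : LaurentSeries Qb) = 0 := rfl
  simp only [h2, h3] at h1
  exact mulg_series_ne Qb 1 a h1

theorem IsNmMulShape.ne_zero {g : FLb N} (h : IsNmMulShape A g) : g ≠ 0 := by
  intro h0
  have h1 := h.inv_mem_Voo
  have h2 := h.mem_Voo
  rcases h with ⟨a, -, rfl⟩ | ⟨b, hb, rfl⟩ | rfl
  · exact nmJ_sub_ne_zero N a h0
  · -- reduction is `1`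
    have := mulg_one_sub_red N A 1 (one_dvd N) hb
    have e : (⟨_, mulg_one_sub_mem N A 1 (one_dvd N) hb⟩ : gaussOBar N A) = 0 :=
      Subtype.ext h0
    rw [e, map_zero] at this
    exact zero_ne_one this
  · exact one_ne_zero h0

/-- a local multiplier has no pole outside the poles of `j` -/
theorem IsNmMulShape.ord_nonneg {g : FLb N} (h : IsNmMulShape A g) (P' : Place Qb (FLb N))
    (hP' : 0 ≤ P'.ord (nmJ N)) : 0 ≤ P'.ord g := by
  have hg := h.ne_zero
  rcases h with ⟨a, -, rfl⟩ | ⟨b, -, rfl⟩ | rfl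
  · rw [sub_eq_add_neg] at hg ⊢
    refine Fermat.Agent.H23.ord_add_ge P' hg 0 (Or.inr hP') (Or.inr ?_)
    rw [Fermat.Agent.H23.ord_neg, Fermat.Agent.H23.ord_algebraMap]
  · rw [sub_eq_add_neg] at hg ⊢
    refine Fermat.Agent.H23.ord_add_ge P' hg 0 (Or.inr ?_) ?_
    · rw [Place.ord_one]
    · by_cases hb0 : algebraMap Qb (FLb N) b * nmJ N = 0
      · left; rw [hb0, neg_zero]
      · right
        rw [Fermat.Agent.H23.ord_neg, Place.ord_mul P' (left_ne_zero_of_mul hb0)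
          (right_ne_zero_of_mul hb0), Fermat.Agent.H23.ord_algebraMap, zero_add]
        exact hP'
  · rw [Place.ord_one]

end Shape

section ShapeW

variable {M p : ℕ} [NeZero M] [NeZero p] (hcop : Nat.Coprime M p) {A : ValuationSubring Qb}

theorem IsNmMulShape.mem_V0 {g : FLb (M * p)} (h : IsNmMulShape A g) :
    g ∈ nmV0 M p hcop A := by
  obtain ⟨d'', hd0, hd'', h1, -⟩ := (nmW_spec M p hcop).1 1 inferInstance (one_dvd _)
  have hJ : nmW M p hcop (nmJ (M * p)) = Fermat.Agent.H23.jBarD (M * p) d'' hd'' := h1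
  rw [mem_nmV0_iff]
  rcases h with ⟨a, ha, rfl⟩ | ⟨b, hb, rfl⟩ | rfl
  · rw [map_sub, hJ, AlgEquiv.commutes]
    exact mulg_sub_mem (M * p) A d'' hd'' ha
  · rw [map_sub, map_one, map_mul, hJ, AlgEquiv.commutes]
    exact mulg_one_sub_mem (M * p) A d'' hd'' hb
  · rw [map_one]; exact (gaussOBar (M * p) A).one_mem

theorem IsNmMulShape.inv_mem_V0 {g : FLb (M * p)} (h : IsNmMulShape A g) :
    g⁻¹ ∈ nmV0 M p hcop A := by
  obtain ⟨d'', hd0, hd'', h1, -⟩ := (nmW_spec M p hcop).1 1 inferInstance (one_dvd _)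
  have hJ : nmW M p hcop (nmJ (M * p)) = Fermat.Agent.H23.jBarD (M * p) d'' hd'' := h1
  rw [mem_nmV0_iff, map_inv₀]
  rcases h with ⟨a, ha, rfl⟩ | ⟨b, hb, rfl⟩ | rfl
  · rw [map_sub, hJ, AlgEquiv.commutes]
    exact mulg_sub_inv_mem (M * p) A d'' hd'' ha
  · rw [map_sub, map_one, map_mul, hJ, AlgEquiv.commutes]
    exact mulg_one_sub_inv_mem (M * p) A d'' hd'' hb
  · rw [map_one, inv_one]; exact (gaussOBar (M * p) A).one_mem

end ShapeW

/-! ### 3. The local multiplier at a place -/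

section Local

variable {N : ℕ} [NeZero N] (A : ValuationSubring Qb)

open Classical in
/-- **the local multiplier** at `P` : `j - a` if `a = j(P) ∈ A`, `1 - a⁻¹ j` if `a = j(P) ∉ A`,
`1` if `P` is a pole of `j` -/
def nmMulAt (P : Place Qb (FLb N)) : FLb N :=
  if h : ∃ a : Qb, HasValue P (nmJ N) a then
    if Classical.choose h ∈ A then nmJ N - algebraMap Qb (FLb N) (Classical.choose h)
    else 1 - algebraMap Qb (FLb N) (Classical.choose h)⁻¹ * nmJ N
  else 1

/-- the three cases of the definition -/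
theorem nmMulAt_cases (P : Place Qb (FLb N)) :
    (∃ a : Qb, HasValue P (nmJ N) a ∧ a ∈ A ∧
        nmMulAt A P = nmJ N - algebraMap Qb (FLb N) a) ∨
      (∃ a : Qb, HasValue P (nmJ N) a ∧ a ∉ A ∧
        nmMulAt A P = 1 - algebraMap Qb (FLb N) a⁻¹ * nmJ N) ∨
      ((¬ ∃ a : Qb, HasValue P (nmJ N) a) ∧ nmMulAt A P = 1) := by
  classical
  by_cases h : ∃ a : Qb, HasValue P (nmJ N) a
  · by_cases h' : Classical.choose h ∈ A
    · left
      refine ⟨Classical.choose h, Classical.choose_spec h, h', ?_⟩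
      rw [nmMulAt, dif_pos h, if_pos h']
    · right; left
      refine ⟨Classical.choose h, Classical.choose_spec h, h', ?_⟩
      rw [nmMulAt, dif_pos h, if_neg h']
  · right; right
    exact ⟨h, by rw [nmMulAt, dif_neg h]⟩

theorem nmMulAt_shape (P : Place Qb (FLb N)) : IsNmMulShape A (nmMulAt A P) := by
  rcases nmMulAt_cases A P with ⟨a, -, ha, e⟩ | ⟨a, -, ha, e⟩ | ⟨-, e⟩
  · exact Or.inl ⟨a, ha, e⟩
  · exact Or.inr (Or.inl ⟨a⁻¹, Fermat.Agent.H66.ORD.inv_mem_nonunits_of_not_mem A ha, e⟩)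
  · exact Or.inr (Or.inr e)

/-- the local multiplier vanishes at `P`, unless `P` is a pole of `j` -/
theorem nmMulAt_ord_pos (P : Place Qb (FLb N)) (hP : 0 ≤ P.ord (nmJ N)) :
    1 ≤ P.ord (nmMulAt A P) := by
  have key : ∀ a : Qb, HasValue P (nmJ N) a → 1 ≤ P.ord (nmJ N - algebraMap Qb (FLb N) a) := by
    intro a ha
    rcases ha with ha | ha
    · exact absurd (sub_eq_zero.mpr ha) (nmJ_sub_ne_zero N a)
    · exact ha
  rcases nmMulAt_cases A P with ⟨a, hv, -, e⟩ | ⟨a, hv, ha, e⟩ | ⟨hno, -⟩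
  · rw [e]; exact key a hv
  · have ha0 : a ≠ 0 := fun h0 => ha (h0 ▸ A.zero_mem)
    have e2 : (1 : FLb N) - algebraMap Qb (FLb N) a⁻¹ * nmJ N =
        algebraMap Qb (FLb N) (-a⁻¹) * (nmJ N - algebraMap Qb (FLb N) a) := by
      rw [map_neg, map_inv₀]
      have : algebraMap Qb (FLb N) a ≠ 0 := fun h => ha0 ((map_eq_zero _).mp h)
      field_simp
      ring
    have hc : algebraMap Qb (FLb N) (-a⁻¹) ≠ 0 := by
      intro h
      have := (map_eq_zero (algebraMap Qb (FLb N))).mp h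
      exact inv_ne_zero ha0 (neg_eq_zero.mp this)
    rw [e, e2, Place.ord_mul P hc (nmJ_sub_ne_zero N a), Fermat.Agent.H23.ord_algebraMap,
      zero_add]
    exact key a hv
  · exfalso
    obtain ⟨c, hc⟩ := Fermat.Agent.H23.exists_const_ord_sub_pos P
      (Fermat.Agent.H66.ORD.nm_deg_one (P := P)) (f := nmJ N) (Or.inr hP)
    exact hno ⟨c, hc⟩

/-- the Galois action on values -/
theorem hasValue_smul (σ : GQ) {P : Place Qb (FLb N)} {y : FLb N} {a : Qb}
    (h : HasValue P y a) : HasValue (galF N σ • P) (galF N σ • y) (σ a) := by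
  rcases h with h | h
  · left
    rw [h]
    exact SemilinearAut.smul_algebraMap _ a
  · right
    have e : galF N σ • (y - algebraMap Qb (FLb N) a) =
        galF N σ • y - algebraMap Qb (FLb N) (σ a) := by
      rw [smul_sub]
      congr 1
      exact SemilinearAut.smul_algebraMap _ a
    rw [← e, SemilinearAut.ord_smul]
    exact h

/-- the local multiplier at an inertia-fixed place is inertia-fixed -/
theorem nmMulAt_unr (P : Place Qb (FLb N)) (hP : IsUnrPlace A N P) :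
    IsUnrFn A N (nmMulAt A P) := by
  intro σ hσ
  have hJ : galF N σ • nmJ N = nmJ N :=
    Fermat.Agent.H85.ORD.gw_smul_jBarD σ 1 (one_dvd N)
  have hfix : ∀ a : Qb, HasValue P (nmJ N) a → σ a = a := by
    intro a ha
    have h1 := hasValue_smul σ ha
    rw [hP σ hσ, hJ] at h1
    exact mulabs_value_unique P h1 ha
  rcases nmMulAt_cases A P with ⟨a, hv, -, e⟩ | ⟨a, hv, -, e⟩ | ⟨-, e⟩
  · rw [e, smul_sub, hJ]
    congr 1
    rw [SemilinearAut.smul_algebraMap]
    exact congrArg _ (hfix a hv)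
  · rw [e, smul_sub, smul_one, smul_mul', hJ]
    congr 2
    rw [SemilinearAut.smul_algebraMap]
    refine congrArg _ ?_
    show σ a⁻¹ = a⁻¹
    rw [map_inv₀, hfix a hv]
  · rw [e, smul_one]

end Local

/-! ### 4. The multiplier of a pair of places -/

section Pair

variable {N : ℕ} [NeZero N] (A : ValuationSubring Qb)

/-- **the multiplier** `g = g_{P∞}^n g_{P0}^n` of the pair `(P∞, P0)` -/
def nmMul (Poo P0 : Place Qb (FLb N)) (n : ℕ) : FLb N :=
  nmMulAt A Poo ^ n * nmMulAt A P0 ^ n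

theorem nmMul_ne_zero (Poo P0 : Place Qb (FLb N)) (n : ℕ) : nmMul A Poo P0 n ≠ 0 :=
  mul_ne_zero (pow_ne_zero n (nmMulAt_shape A Poo).ne_zero)
    (pow_ne_zero n (nmMulAt_shape A P0).ne_zero)

theorem nmMul_mem_Voo (Poo P0 : Place Qb (FLb N)) (n : ℕ) :
    nmMul A Poo P0 n ∈ gaussOBar N A :=
  (gaussOBar N A).mul_mem ((gaussOBar N A).pow_mem (nmMulAt_shape A Poo).mem_Voo n)
    ((gaussOBar N A).pow_mem (nmMulAt_shape A P0).mem_Voo n)

theorem nmMul_inv_mem_Voo (Poo P0 : Place Qb (FLb N)) (n : ℕ) :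
    (nmMul A Poo P0 n)⁻¹ ∈ gaussOBar N A := by
  rw [nmMul, mul_inv, ← inv_pow, ← inv_pow]
  exact (gaussOBar N A).mul_mem ((gaussOBar N A).pow_mem (nmMulAt_shape A Poo).inv_mem_Voo n)
    ((gaussOBar N A).pow_mem (nmMulAt_shape A P0).inv_mem_Voo n)

/-- multiplication by `g` preserves `V_∞` in both directions -/
theorem nmMul_mul_mem_Voo_iff (Poo P0 : Place Qb (FLb N)) (n : ℕ) (f : FLb N) :
    nmMul A Poo P0 n * f ∈ gaussOBar N A ↔ f ∈ gaussOBar N A := by
  constructor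
  · intro h
    have := (gaussOBar N A).mul_mem (nmMul_inv_mem_Voo A Poo P0 n) h
    rwa [inv_mul_cancel_left₀ (nmMul_ne_zero A Poo P0 n)] at this
  · intro h
    exact (gaussOBar N A).mul_mem (nmMul_mem_Voo A Poo P0 n) h

/-- the reduction of `g` at `∞` is not zero -/
theorem nmMul_red_ne_zero (Poo P0 : Place Qb (FLb N)) (n : ℕ) :
    gaussRedBar N A ⟨nmMul A Poo P0 n, nmMul_mem_Voo A Poo P0 n⟩ ≠ 0 := by
  intro h
  have h1 : (⟨nmMul A Poo P0 n, nmMul_mem_Voo A Poo P0 n⟩ : gaussOBar N A) *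
      ⟨(nmMul A Poo P0 n)⁻¹, nmMul_inv_mem_Voo A Poo P0 n⟩ = 1 :=
    Subtype.ext (mul_inv_cancel₀ (nmMul_ne_zero A Poo P0 n))
  have h2 := congrArg (gaussRedBar N A) h1
  rw [map_mul, h, zero_mul, map_one] at h2
  exact zero_ne_one h2

/-- `g` is inertia-fixed, if `P∞` and `P0` are -/
theorem nmMul_unr (Poo P0 : Place Qb (FLb N)) (n : ℕ) (hPoo : IsUnrPlace A N Poo)
    (hP0 : IsUnrPlace A N P0) : IsUnrFn A N (nmMul A Poo P0 n) := by
  intro σ hσ
  rw [nmMul, smul_mul', smul_pow', smul_pow', nmMulAt_unr A Poo hPoo σ hσ,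
    nmMulAt_unr A P0 hP0 σ hσ]

/-- `g f` is inertia-fixed, if `P∞`, `P0` and `f` are -/
theorem nmMul_mul_unr (Poo P0 : Place Qb (FLb N)) (n : ℕ) (hPoo : IsUnrPlace A N Poo)
    (hP0 : IsUnrPlace A N P0) {f : FLb N} (hf : IsUnrFn A N f) :
    IsUnrFn A N (nmMul A Poo P0 n * f) := by
  intro σ hσ
  rw [smul_mul', nmMul_unr A Poo P0 n hPoo hP0 σ hσ, hf σ hσ]

theorem mulabs_ord_pow {K F : Type} [Field K] [Field F] [Algebra K F] (v : Place K F) (s : F)
    (k : ℕ) : v.ord (s ^ k) = (k : ℤ) * v.ord s := by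
  have := v.ord_zpow s (k : ℤ)
  rwa [zpow_natCast] at this

/-- the order of the local multiplier of `P` at `P'` is at least `1` if `P' = P`, at least `0`
otherwise (`P'` not a pole of `j`) -/
theorem nmMulAt_ord_ge (P P' : Place Qb (FLb N)) (hP' : 0 ≤ P'.ord (nmJ N)) (n : ℕ) :
    (Finsupp.single P (n : ℤ) : Divisor Qb (FLb N)) P' ≤ P'.ord (nmMulAt A P ^ n) := by
  classical
  rw [mulabs_ord_pow, Finsupp.single_apply]
  by_cases h : P = P'
  · rw [if_pos h]
    subst h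
    have := nmMulAt_ord_pos A P hP'
    nlinarith [Int.natCast_nonneg n]
  · rw [if_neg h]
    have := (nmMulAt_shape A P).ord_nonneg P' hP'
    positivity

/-- **no poles outside the poles of `j`.**  For `f ∈ L(n P∞ + n P0)` the product `g f` has no
pole at the places which are not poles of `j`. -/
theorem nmMul_mul_ord_nonneg (Poo P0 : Place Qb (FLb N)) (n : ℕ) {f : FLb N}
    (hf : f ∈ riemannRochSpace (twoPt Poo P0 n)) (P' : Place Qb (FLb N))
    (hP' : 0 ≤ P'.ord (nmJ N)) :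
    nmMul A Poo P0 n * f = 0 ∨ 0 ≤ P'.ord (nmMul A Poo P0 n * f) := by
  by_cases hf0 : f = 0
  · left; rw [hf0, mul_zero]
  · right
    have h1 := (mem_riemannRochSpace_iff.mp hf P').resolve_left hf0
    have h2 := nmMulAt_ord_ge A Poo P' hP' n
    have h3 := nmMulAt_ord_ge A P0 P' hP' n
    have e : (twoPt Poo P0 n) P' =
        (Finsupp.single Poo (n : ℤ) : Divisor Qb (FLb N)) P' +
          (Finsupp.single P0 (n : ℤ) : Divisor Qb (FLb N)) P' := by
      rw [twoPt, Finsupp.add_apply]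
    rw [e] at h1
    rw [Place.ord_mul P' (nmMul_ne_zero A Poo P0 n) hf0, nmMul,
      Place.ord_mul P' (pow_ne_zero n (nmMulAt_shape A Poo).ne_zero)
        (pow_ne_zero n (nmMulAt_shape A P0).ne_zero)]
    omega

theorem nmJ_eq_jBar (N : ℕ) [NeZero N] : nmJ N = Fermat.Agent.H23.jBar N := by
  apply Subtype.ext
  show coeffEmb Qb (qExpand ℚ 1 jq) = coeffEmb Qb jq
  rw [qExpand_one_apply]

/-- **integrality.**  For `f ∈ L(n P∞ + n P0)` the product `g f` is integral over `ℚ̄[j]`. -/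
theorem nmMul_mul_isIntegral (Poo P0 : Place Qb (FLb N)) (n : ℕ) {f : FLb N}
    (hf : f ∈ riemannRochSpace (twoPt Poo P0 n)) :
    IsIntegral (Algebra.adjoin Qb ({nmJ N} : Set (FLb N))) (nmMul A Poo P0 n * f) := by
  have hdeg := Fermat.Agent.H23.degreeStatement_holds N
  unfold Fermat.Agent.H23.DegreeStatement at hdeg
  rw [← nmJ_eq_jBar] at hdeg
  exact mulabs_isIntegral_of_ord (nmJ N) hdeg.1 hdeg.2.1 _
    (fun w hw => nmMul_mul_ord_nonneg A Poo P0 n hf w hw)

end Pair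

section PairW

variable {M p : ℕ} [NeZero M] [NeZero p] (hcop : Nat.Coprime M p) (A : ValuationSubring Qb)

theorem nmMul_mem_V0 (Poo P0 : Place Qb (FLb (M * p))) (n : ℕ) :
    nmMul A Poo P0 n ∈ nmV0 M p hcop A :=
  (nmV0 M p hcop A).mul_mem
    ((nmV0 M p hcop A).pow_mem ((nmMulAt_shape A Poo).mem_V0 hcop) n)
    ((nmV0 M p hcop A).pow_mem ((nmMulAt_shape A P0).mem_V0 hcop) n)

theorem nmMul_inv_mem_V0 (Poo P0 : Place Qb (FLb (M * p))) (n : ℕ) :
    (nmMul A Poo P0 n)⁻¹ ∈ nmV0 M p hcop A := by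
  rw [nmMul, mul_inv, ← inv_pow, ← inv_pow]
  exact (nmV0 M p hcop A).mul_mem
    ((nmV0 M p hcop A).pow_mem ((nmMulAt_shape A Poo).inv_mem_V0 hcop) n)
    ((nmV0 M p hcop A).pow_mem ((nmMulAt_shape A P0).inv_mem_V0 hcop) n)

/-- multiplication by `g` preserves `V_0` in both directions -/
theorem nmMul_mul_mem_V0_iff (Poo P0 : Place Qb (FLb (M * p))) (n : ℕ) (f : FLb (M * p)) :
    nmMul A Poo P0 n * f ∈ nmV0 M p hcop A ↔ f ∈ nmV0 M p hcop A := by
  constructor
  · intro h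
    have := (nmV0 M p hcop A).mul_mem (nmMul_inv_mem_V0 hcop A Poo P0 n) h
    rwa [inv_mul_cancel_left₀ (nmMul_ne_zero A Poo P0 n)] at this
  · intro h
    exact (nmV0 M p hcop A).mul_mem (nmMul_mem_V0 hcop A Poo P0 n) h

/-- the reduction of `g` at `0` is not zero -/
theorem nmMul_red0_ne_zero (Poo P0 : Place Qb (FLb (M * p))) (n : ℕ) :
    nmRed0 M p hcop A ⟨nmMul A Poo P0 n, nmMul_mem_V0 hcop A Poo P0 n⟩ ≠ 0 := by
  intro h
  have h1 : (⟨nmMul A Poo P0 n, nmMul_mem_V0 hcop A Poo P0 n⟩ : nmV0 M p hcop A) *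
      ⟨(nmMul A Poo P0 n)⁻¹, nmMul_inv_mem_V0 hcop A Poo P0 n⟩ = 1 :=
    Subtype.ext (mul_inv_cancel₀ (nmMul_ne_zero A Poo P0 n))
  have h2 := congrArg (nmRed0 M p hcop A) h1
  rw [map_mul, h, zero_mul, map_one] at h2
  exact zero_ne_one h2

end PairW

end Fermat.Agent.H36.ORD
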